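import Mathlib
import Fermat.Agent.LT.T6.Spec

/-!
# Row LT, tower T6, leaf T6.06 `TwCentC` (helper166) -- OFF-MAIN

`twCentC166 : Fermat.Agent.LT.T6.TwCentC`, VERBATIM against `LT/T6/Spec.lean`
(origin/helper22@823e765ba, sha256 89f8f8b81940fd80), unconditional, Mathlib only.

Statement ([L] par. 4): `K'/K` cyclic of degree `l` with generator `s`, `δ ∈ GL₂(K')` with
`N δ = δ s(δ) ⋯ s^{l-1}(δ) = γ ∈ GL₂(K)` regular.  Then
`{x ∈ GL₂(K') : x⁻¹ δ s(x) = δ}` is the image of the centraliser of `γ` in `GL₂(K)`.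

Proof.
* `comm_of_comm166`: the centraliser of a non-scalar `2 × 2` matrix over a field is commutative
  (the vectors `(x₀₁, x₁₀, x₀₀ - x₁₁)` of the elements of the centraliser are all proportional to
  the one of `γ`).
* `twN_succ_right166`: `N_{n+1} δ = N_n δ · sⁿ(δ)`; with `s^l = 1`, `s(γ) = γ`:
  `δ γ = δ s(N_l δ) = N_{l+1} δ = N_l δ · s^l(δ) = γ δ`.
* `twN_semiconj166`: `x δ = δ s(x)` implies `x N_n δ = N_n δ sⁿ(x)`, so `x γ = γ x`.
* Hence `x` and `δ` commute, `δ s(x) = x δ = δ x`, `s(x) = x`, the entries of `x` lie in `K`.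
* Conversely `t ∈ GL₂(K)` with `t γ = γ t` commutes with `δ` and `s(t) = t`.

Only `fix_i`, `fixed` and `order` of `IsCyclicData` are used.
-/

set_option autoImplicit false

open scoped Matrix

namespace Fermat.Agent.LT.T6.H166

open Fermat.Agent.LT.T6

/-! ## 1. The centraliser of a non-scalar `2 × 2` matrix is commutative -/

section Centraliser

variable {F : Type} [Field F]

/-- A `2 × 2` matrix with non-zero discriminant is not scalar. -/
theorem nonscalar_of_disc166 (M : Matrix (Fin 2) (Fin 2) F)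
    (h : M.trace ^ 2 - 4 * M.det ≠ 0) :
    M 0 1 ≠ 0 ∨ M 1 0 ≠ 0 ∨ M 0 0 - M 1 1 ≠ 0 := by
  by_contra hcon
  rw [not_or, not_or] at hcon
  obtain ⟨h1, h2, h3⟩ := hcon
  apply h
  rw [Matrix.trace_fin_two, Matrix.det_fin_two, not_not.mp h1, not_not.mp h2]
  have h4 : M 0 0 = M 1 1 := sub_eq_zero.mp (not_not.mp h3)
  rw [h4]
  ring

/-- The three relations expressing that `X` commutes with `M`. -/
theorem comm_relations166 (X M : Matrix (Fin 2) (Fin 2) F) (h : X * M = M * X) :
    X 0 1 * M 1 0 = M 0 1 * X 1 0 ∧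
    M 0 1 * (X 0 0 - X 1 1) = X 0 1 * (M 0 0 - M 1 1) ∧
    X 1 0 * (M 0 0 - M 1 1) = M 1 0 * (X 0 0 - X 1 1) := by
  have h00 := congrFun (congrFun h 0) 0
  have h01 := congrFun (congrFun h 0) 1
  have h10 := congrFun (congrFun h 1) 0
  simp only [Matrix.mul_apply, Fin.sum_univ_two] at h00 h01 h10
  refine ⟨?_, ?_, ?_⟩
  · linear_combination h00
  · linear_combination h01
  · linear_combination h10

/-- Two matrices commuting with a non-scalar `2 × 2` matrix commute. -/
theorem comm_of_comm166 (M X Y : Matrix (Fin 2) (Fin 2) F)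
    (hM : M 0 1 ≠ 0 ∨ M 1 0 ≠ 0 ∨ M 0 0 - M 1 1 ≠ 0)
    (hX : X * M = M * X) (hY : Y * M = M * Y) : X * Y = Y * X := by
  obtain ⟨hX1, hX2, hX3⟩ := comm_relations166 X M hX
  obtain ⟨hY1, hY2, hY3⟩ := comm_relations166 Y M hY
  -- the three minors of `(X₀₁, X₁₀, X₀₀ - X₁₁)` and `(Y₀₁, Y₁₀, Y₀₀ - Y₁₁)` vanish
  have key : X 0 1 * Y 1 0 = Y 0 1 * X 1 0 ∧
      Y 0 1 * (X 0 0 - X 1 1) = X 0 1 * (Y 0 0 - Y 1 1) ∧
      X 1 0 * (Y 0 0 - Y 1 1) = Y 1 0 * (X 0 0 - X 1 1) := by
    rcases hM with hq | hr | hd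
    · have G1 : X 0 1 * Y 1 0 = Y 0 1 * X 1 0 := by
        apply mul_left_cancel₀ hq
        linear_combination (-(X 0 1)) * hY1 + Y 0 1 * hX1
      have G2 : Y 0 1 * (X 0 0 - X 1 1) = X 0 1 * (Y 0 0 - Y 1 1) := by
        apply mul_left_cancel₀ hq
        linear_combination Y 0 1 * hX2 - X 0 1 * hY2
      have G3 : X 1 0 * (Y 0 0 - Y 1 1) = Y 1 0 * (X 0 0 - X 1 1) := by
        apply mul_left_cancel₀ hq
        linear_combination (-(Y 0 0 - Y 1 1)) * hX1 + (X 0 0 - X 1 1) * hY1 - M 1 0 * G2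
      exact ⟨G1, G2, G3⟩
    · have G1 : X 0 1 * Y 1 0 = Y 0 1 * X 1 0 := by
        apply mul_left_cancel₀ hr
        linear_combination Y 1 0 * hX1 - X 1 0 * hY1
      have G3 : X 1 0 * (Y 0 0 - Y 1 1) = Y 1 0 * (X 0 0 - X 1 1) := by
        apply mul_left_cancel₀ hr
        linear_combination Y 1 0 * hX3 - X 1 0 * hY3
      have G2 : Y 0 1 * (X 0 0 - X 1 1) = X 0 1 * (Y 0 0 - Y 1 1) := by
        apply mul_left_cancel₀ hr
        linear_combination (X 0 0 - X 1 1) * hY1 - (Y 0 0 - Y 1 1) * hX1 - M 0 1 * G3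
      exact ⟨G1, G2, G3⟩
    · have G2 : Y 0 1 * (X 0 0 - X 1 1) = X 0 1 * (Y 0 0 - Y 1 1) := by
        apply mul_left_cancel₀ hd
        linear_combination (Y 0 0 - Y 1 1) * hX2 - (X 0 0 - X 1 1) * hY2
      have G3 : X 1 0 * (Y 0 0 - Y 1 1) = Y 1 0 * (X 0 0 - X 1 1) := by
        apply mul_left_cancel₀ hd
        linear_combination (Y 0 0 - Y 1 1) * hX3 - (X 0 0 - X 1 1) * hY3
      have G1 : X 0 1 * Y 1 0 = Y 0 1 * X 1 0 := by
        apply mul_left_cancel₀ hd
        linear_combination X 0 1 * hY3 - Y 0 1 * hX3 - M 1 0 * G2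
      exact ⟨G1, G2, G3⟩
  obtain ⟨G1, G2, G3⟩ := key
  ext a b
  fin_cases a <;> fin_cases b <;>
    simp only [Matrix.mul_apply, Fin.sum_univ_two, Fin.zero_eta, Fin.mk_one, Fin.isValue]
  · linear_combination G1
  · linear_combination G2
  · linear_combination G3
  · linear_combination (-1 : F) * G1

end Centraliser

/-! ## 2. The twisted norm in a group -/

section TwistedNorm

variable {Γ : Type} [Group Γ]

theorem twN_zero166 (s : Γ →* Γ) (δ : Γ) : twN s 0 δ = 1 := rfl

theorem twN_succ166 (s : Γ →* Γ) (n : ℕ) (δ : Γ) :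
    twN s (n + 1) δ = δ * s (twN s n δ) := rfl

/-- `N_{n+1} δ = N_n δ · sⁿ(δ)`. -/
theorem twN_succ_right166 (s : Γ →* Γ) (n : ℕ) (δ : Γ) :
    twN s (n + 1) δ = twN s n δ * (s^[n]) δ := by
  induction n with
  | zero => simp [twN_succ166, twN_zero166]
  | succ n ih =>
    calc twN s (n + 1 + 1) δ = δ * s (twN s (n + 1) δ) := rfl
      _ = δ * s (twN s n δ * (s^[n]) δ) := by rw [ih]
      _ = (δ * s (twN s n δ)) * s ((s^[n]) δ) := by rw [map_mul, mul_assoc]
      _ = twN s (n + 1) δ * (s^[n + 1]) δ := by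
        rw [Function.iterate_succ_apply']
        rfl

/-- `x δ = δ s(x)` implies `x · N_n δ = N_n δ · sⁿ(x)`. -/
theorem twN_semiconj166 (s : Γ →* Γ) (δ x : Γ) (h : x * δ = δ * s x) (n : ℕ) :
    x * twN s n δ = twN s n δ * (s^[n]) x := by
  induction n with
  | zero => simp [twN_zero166]
  | succ n ih =>
    calc x * twN s (n + 1) δ = x * (δ * s (twN s n δ)) := rfl
      _ = (x * δ) * s (twN s n δ) := by rw [mul_assoc]
      _ = (δ * s x) * s (twN s n δ) := by rw [h]
      _ = δ * s (x * twN s n δ) := by rw [map_mul, mul_assoc]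
      _ = δ * s (twN s n δ * (s^[n]) x) := by rw [ih]
      _ = (δ * s (twN s n δ)) * s ((s^[n]) x) := by rw [map_mul, mul_assoc]
      _ = twN s (n + 1) δ * (s^[n + 1]) x := by
        rw [Function.iterate_succ_apply']
        rfl

end TwistedNorm

/-! ## 3. The automorphism on `GL₂` -/

section GLAut

variable {R : Type} [CommRing R]

theorem glAut_apply166 (s : R ≃+* R) (g : GL (Fin 2) R) (a b : Fin 2) :
    (glAut s g : Matrix (Fin 2) (Fin 2) R) a b = s ((g : Matrix (Fin 2) (Fin 2) R) a b) := rfl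

theorem glAut_iterate_apply166 (s : R ≃+* R) (n : ℕ) (g : GL (Fin 2) R) (a b : Fin 2) :
    (((glAut s)^[n]) g : Matrix (Fin 2) (Fin 2) R) a b
      = (s ^ n) ((g : Matrix (Fin 2) (Fin 2) R) a b) := by
  induction n with
  | zero => simp
  | succ n ih =>
    rw [Function.iterate_succ_apply', glAut_apply166, ih, pow_succ']
    rfl

theorem glAut_iterate_eq166 (s : R ≃+* R) (l : ℕ) (h : ∀ y : R, (s ^ l) y = y)
    (g : GL (Fin 2) R) : ((glAut s)^[l]) g = g := by
  apply Matrix.GeneralLinearGroup.ext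
  intro a b
  rw [glAut_iterate_apply166, h]

end GLAut

/-! ## 4. The leaf -/

section Leaf

variable {K K' : Type} [Field K] [Field K']

/-- The image of `GL₂(K)` is fixed by `s`. -/
theorem glAut_map166 (i : K →+* K') (s : K' ≃+* K') (hfix : ∀ x : K, s (i x) = i x)
    (t : GL (Fin 2) K) :
    glAut s (Matrix.GeneralLinearGroup.map i t) = Matrix.GeneralLinearGroup.map i t := by
  apply Matrix.GeneralLinearGroup.ext
  intro a b
  rw [glAut_apply166, Matrix.GeneralLinearGroup.map_apply, hfix]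

/-- `GL₂(K) → GL₂(K')` is injective. -/
theorem map_injective166 (i : K →+* K') :
    Function.Injective (Matrix.GeneralLinearGroup.map (n := Fin 2) i) := by
  intro g h hgh
  apply Matrix.GeneralLinearGroup.ext
  intro a b
  have h1 := congrArg (fun z : GL (Fin 2) K' => (z : Matrix (Fin 2) (Fin 2) K') a b) hgh
  simp only [Matrix.GeneralLinearGroup.map_apply] at h1
  exact i.injective h1

/-- An element of `GL₂(K')` fixed by `s` comes from `GL₂(K)`. -/
theorem exists_map_eq166 (i : K →+* K') (s : K' ≃+* K')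
    (hfixed : ∀ y : K', s y = y → ∃ x : K, i x = y)
    (x : GL (Fin 2) K') (hx : glAut s x = x) :
    ∃ t : GL (Fin 2) K, x = Matrix.GeneralLinearGroup.map i t := by
  have hent : ∀ a b : Fin 2, ∃ y : K, i y = (x : Matrix (Fin 2) (Fin 2) K') a b := by
    intro a b
    apply hfixed
    have h1 := congrArg (fun z : GL (Fin 2) K' => (z : Matrix (Fin 2) (Fin 2) K') a b) hx
    simpa only [glAut_apply166] using h1
  choose T hT using hent
  have hmap : (Matrix.of T).map i = (x : Matrix (Fin 2) (Fin 2) K') := by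
    ext a b
    simp [hT]
  have hdet : (Matrix.of T).det ≠ 0 := by
    intro h0
    have h1 : i ((Matrix.of T).det) = (x : Matrix (Fin 2) (Fin 2) K').det := by
      rw [RingHom.map_det, RingHom.mapMatrix_apply, hmap]
    rw [h0, map_zero] at h1
    have h2 : IsUnit (x : Matrix (Fin 2) (Fin 2) K').det :=
      (Matrix.isUnit_iff_isUnit_det _).mp x.isUnit
    exact h2.ne_zero h1.symm
  refine ⟨Matrix.GeneralLinearGroup.mkOfDetNeZero (Matrix.of T) hdet, ?_⟩
  apply Matrix.GeneralLinearGroup.ext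
  intro a b
  rw [Matrix.GeneralLinearGroup.map_apply]
  simp [hT]

/-- Regularity passes to `K'`: the image of a regular element is not scalar. -/
theorem nonscalar_map166 (i : K →+* K') (γ : GL (Fin 2) K) (hreg : IsReg γ) :
    (Matrix.GeneralLinearGroup.map i γ : Matrix (Fin 2) (Fin 2) K') 0 1 ≠ 0 ∨
    (Matrix.GeneralLinearGroup.map i γ : Matrix (Fin 2) (Fin 2) K') 1 0 ≠ 0 ∨
    (Matrix.GeneralLinearGroup.map i γ : Matrix (Fin 2) (Fin 2) K') 0 0
      - (Matrix.GeneralLinearGroup.map i γ : Matrix (Fin 2) (Fin 2) K') 1 1 ≠ 0 := by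
  have h0 : (γ : Matrix (Fin 2) (Fin 2) K).trace ^ 2
      - 4 * (γ : Matrix (Fin 2) (Fin 2) K).det ≠ 0 := hreg.ne_zero
  rcases nonscalar_of_disc166 _ h0 with h | h | h
  · left
    rw [Matrix.GeneralLinearGroup.map_apply]
    exact fun h' => h (i.injective (by rw [h', map_zero]))
  · right; left
    rw [Matrix.GeneralLinearGroup.map_apply]
    exact fun h' => h (i.injective (by rw [h', map_zero]))
  · right; right
    rw [Matrix.GeneralLinearGroup.map_apply, Matrix.GeneralLinearGroup.map_apply, ← map_sub]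
    exact fun h' => h (i.injective (by rw [h', map_zero]))

/-- Commutation in `GL₂` from commutation with a non-scalar element. -/
theorem gl_comm_of_comm166 (g x y : GL (Fin 2) K')
    (hg : (g : Matrix (Fin 2) (Fin 2) K') 0 1 ≠ 0 ∨ (g : Matrix (Fin 2) (Fin 2) K') 1 0 ≠ 0 ∨
      (g : Matrix (Fin 2) (Fin 2) K') 0 0 - (g : Matrix (Fin 2) (Fin 2) K') 1 1 ≠ 0)
    (hx : x * g = g * x) (hy : y * g = g * y) : x * y = y * x := by
  apply Units.ext
  have hx' : (x : Matrix (Fin 2) (Fin 2) K') * g = g * x := by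
    have := congrArg (fun z : GL (Fin 2) K' => (z : Matrix (Fin 2) (Fin 2) K')) hx
    simpa using this
  have hy' : (y : Matrix (Fin 2) (Fin 2) K') * g = g * y := by
    have := congrArg (fun z : GL (Fin 2) K' => (z : Matrix (Fin 2) (Fin 2) K')) hy
    simpa using this
  simpa using comm_of_comm166 (g : Matrix (Fin 2) (Fin 2) K') x y hg hx' hy'

/-- **T6.06 `TwCentC`** ([L] par. 4). -/
theorem twCentC166 : TwCentC := by
  intro K K' _ _ l i s hcyc δ γ hreg hN x
  have hns := nonscalar_map166 i γ hreg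
  have hiter : ∀ g : GL (Fin 2) K', ((glAut s)^[l]) g = g :=
    glAut_iterate_eq166 s l hcyc.order
  have hN' : twN (glAut s) l δ = Matrix.GeneralLinearGroup.map i γ := hN
  have hσγ : glAut s (Matrix.GeneralLinearGroup.map i γ) = Matrix.GeneralLinearGroup.map i γ :=
    glAut_map166 i s hcyc.fix_i γ
  -- `δ` commutes with `γ`
  have hδγ : δ * Matrix.GeneralLinearGroup.map i γ = Matrix.GeneralLinearGroup.map i γ * δ := by
    have h1 : twN (glAut s) (l + 1) δ = δ * Matrix.GeneralLinearGroup.map i γ := by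
      rw [twN_succ166, hN', hσγ]
    have h2 : twN (glAut s) (l + 1) δ = Matrix.GeneralLinearGroup.map i γ * δ := by
      rw [twN_succ_right166, hN', hiter]
    rw [← h1, h2]
  constructor
  · intro hx
    have hx0 : x⁻¹ * δ * glAut s x = δ := hx
    have hx1 : x * δ = δ * glAut s x := by
      rw [← hx0]
      simp only [mul_assoc, mul_inv_cancel_left]
      rw [← mul_assoc, ← mul_assoc, hx0]
    have hxγ : x * Matrix.GeneralLinearGroup.map i γ = Matrix.GeneralLinearGroup.map i γ * x := by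
      have := twN_semiconj166 (glAut s) δ x hx1 l
      rwa [hN', hiter] at this
    have hxδ : x * δ = δ * x := gl_comm_of_comm166 _ x δ hns hxγ hδγ
    have hσx : glAut s x = x := by
      have h3 : δ * glAut s x = δ * x := by rw [← hx1, hxδ]
      exact mul_left_cancel h3
    obtain ⟨t, ht⟩ := exists_map_eq166 i s hcyc.fixed x hσx
    refine ⟨t, ?_, ht⟩
    apply map_injective166 i
    rw [map_mul, map_mul, ← ht, hxγ]
  · rintro ⟨t, ht, rfl⟩
    have htγ : Matrix.GeneralLinearGroup.map i t * Matrix.GeneralLinearGroup.map i γ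
        = Matrix.GeneralLinearGroup.map i γ * Matrix.GeneralLinearGroup.map i t := by
      rw [← map_mul, ← map_mul, ht]
    have htδ : Matrix.GeneralLinearGroup.map i t * δ = δ * Matrix.GeneralLinearGroup.map i t :=
      gl_comm_of_comm166 _ _ δ hns htγ hδγ
    show (Matrix.GeneralLinearGroup.map i t)⁻¹ * δ
      * glAut s (Matrix.GeneralLinearGroup.map i t) = δ
    rw [glAut_map166 i s hcyc.fix_i t, mul_assoc, ← htδ, inv_mul_cancel_left]

end Leaf

end Fermat.Agent.LT.T6.H166
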