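import Mathlib
import Fermat.Agent.LT.T6.H438.HasseQ3

/-!
# Row LT, tower T6, leaf T6.00q.3 `NormFC438` (helper166) -- OFF-MAIN

`normFC166 : Fermat.Agent.LT.T6.H438.NormFC438`, VERBATIM against
`LT/T6/H438/HasseQ3.lean` (origin/helper438@9c79cc886, sha256 7b061f61b47b31e2): a positive
rational number with even valuation at every prime `p ≡ 2 mod 3` is `a² + 3 b²`, `a, b ∈ ℚ`.

Elementary proof (no ring of Eisenstein integers, no lemma of Thue):
* the rational numbers `a² + 3 b²` are closed under products and inverses and contain the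
  squares and `3` (`IsNormF166`);
* for a prime `p ≡ 1 mod 3` there is `x < p` with `p ∣ x² + 3` (`x = 2 ω + 1`, `ω` of order `3` in
  `(ℤ/p)ˣ`);
* an odd prime `q ≡ 2 mod 3` never divides `x² + 3` (else `(x - 1)/2` has order `3` in `(ℤ/q)ˣ`),
  and `v₂(x² + 3) ∈ {0, 2}`;
* so `p = (x² + 3) / m` with `m < p` and `v_q(m)` even for `q ≡ 2 mod 3`: descent (strong
  induction on `p`).
-/

set_option autoImplicit false

namespace Fermat.Agent.LT.T6.H166

open Fermat.Agent.LT.T6.H438

/-! ## 1. The group of norms -/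

/-- `n = a² + 3 b²` with `a, b` rational. -/
def IsNormF166 (n : ℚ) : Prop := ∃ a b : ℚ, n = a ^ 2 + 3 * b ^ 2

theorem isNormF_mul166 {m n : ℚ} (hm : IsNormF166 m) (hn : IsNormF166 n) :
    IsNormF166 (m * n) := by
  obtain ⟨a, b, rfl⟩ := hm
  obtain ⟨c, d, rfl⟩ := hn
  exact ⟨a * c - 3 * b * d, a * d + b * c, by ring⟩

theorem isNormF_sq166 (a : ℚ) : IsNormF166 (a ^ 2) := ⟨a, 0, by ring⟩

theorem isNormF_three166 : IsNormF166 3 := ⟨0, 1, by ring⟩

theorem isNormF_one166 : IsNormF166 1 := ⟨1, 0, by ring⟩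

theorem isNormF_inv166 {n : ℚ} (hn : IsNormF166 n) : IsNormF166 n⁻¹ := by
  have h : n⁻¹ = n * (n⁻¹) ^ 2 := by
    by_cases h0 : n = 0
    · simp [h0]
    · field_simp
  rw [h]
  exact isNormF_mul166 hn (isNormF_sq166 _)

theorem isNormF_div166 {m n : ℚ} (hm : IsNormF166 m) (hn : IsNormF166 n) :
    IsNormF166 (m / n) := by
  rw [div_eq_mul_inv]
  exact isNormF_mul166 hm (isNormF_inv166 hn)

/-! ## 2. Cube roots of unity modulo a prime -/

/-- For a prime `p ≡ 1 mod 3` there is `x < p` with `p ∣ x² + 3`. -/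
theorem exists_sq_add_three166 (p : ℕ) [hp : Fact p.Prime] (h3 : p % 3 = 1) :
    ∃ x : ℕ, x < p ∧ p ∣ x ^ 2 + 3 := by
  have : Fact (Nat.Prime 3) := ⟨Nat.prime_three⟩
  have hcard : 3 ∣ Fintype.card (ZMod p)ˣ := by
    rw [ZMod.card_units]
    have := hp.out.two_le
    omega
  obtain ⟨ω, hω⟩ := exists_prime_orderOf_dvd_card 3 hcard
  have hω3 : (ω : ZMod p) ^ 3 = 1 := by
    have h1 : ω ^ 3 = 1 := by
      rw [← hω]
      exact pow_orderOf_eq_one ω
    have h2 := congrArg Units.val h1
    simpa using h2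
  have hω1 : (ω : ZMod p) ≠ 1 := by
    intro h
    have h1 : ω = 1 := Units.ext h
    rw [h1, orderOf_one] at hω
    norm_num at hω
  have hquad : (ω : ZMod p) ^ 2 + ω + 1 = 0 := by
    have h : ((ω : ZMod p) - 1) * ((ω : ZMod p) ^ 2 + ω + 1) = 0 := by
      linear_combination hω3
    rcases mul_eq_zero.mp h with h | h
    · exact absurd (sub_eq_zero.mp h) hω1
    · exact h
  refine ⟨(2 * (ω : ZMod p) + 1).val, ZMod.val_lt _, ?_⟩
  rw [← ZMod.natCast_eq_zero_iff]
  push_cast
  rw [ZMod.natCast_zmod_val]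
  linear_combination 4 * hquad

/-- An odd prime `q ≡ 2 mod 3` does not divide `x² + 3`. -/
theorem not_dvd_sq_add_three166 (x q : ℕ) (hq : q.Prime) (hq3 : q % 3 = 2) (hq2 : q ≠ 2) :
    ¬ q ∣ x ^ 2 + 3 := by
  intro hdvd
  have : Fact q.Prime := ⟨hq⟩
  have : Fact (Nat.Prime 3) := ⟨Nat.prime_three⟩
  have hx : (x : ZMod q) ^ 2 + 3 = 0 := by
    have h := (ZMod.natCast_eq_zero_iff (x ^ 2 + 3) q).mpr hdvd
    push_cast at h
    exact h
  have h2 : (2 : ZMod q) ≠ 0 := by
    intro h
    have h' : ((2 : ℕ) : ZMod q) = 0 := by exact_mod_cast h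
    have hd := (ZMod.natCast_eq_zero_iff 2 q).mp h'
    exact hq2 ((Nat.prime_dvd_prime_iff_eq hq Nat.prime_two).mp hd)
  have h3 : (3 : ZMod q) ≠ 0 := by
    intro h
    have h' : ((3 : ℕ) : ZMod q) = 0 := by exact_mod_cast h
    have hd := (ZMod.natCast_eq_zero_iff 3 q).mp h'
    have := (Nat.prime_dvd_prime_iff_eq hq Nat.prime_three).mp hd
    omega
  set ω : ZMod q := ((x : ZMod q) - 1) / 2 with hωdef
  have h2ω : 2 * ω = (x : ZMod q) - 1 := by
    rw [hωdef]
    field_simp
  have hquad : ω ^ 2 + ω + 1 = 0 := by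
    have h4 : (4 : ZMod q) * (ω ^ 2 + ω + 1) = 0 := by
      have e : (4 : ZMod q) * (ω ^ 2 + ω + 1) = (2 * ω) ^ 2 + 2 * (2 * ω) + 4 := by ring
      rw [e, h2ω]
      linear_combination hx
    have h4' : (4 : ZMod q) ≠ 0 := by
      have e : (4 : ZMod q) = 2 * 2 := by norm_num
      rw [e]
      exact mul_ne_zero h2 h2
    exact (mul_eq_zero.mp h4).resolve_left h4'
  have hω3 : ω ^ 3 = 1 := by linear_combination (ω - 1) * hquad
  have hω1 : ω ≠ 1 := by
    intro h
    rw [h] at hquad
    apply h3
    linear_combination hquad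
  have hω0 : ω ≠ 0 := by
    intro h
    rw [h] at hω3
    norm_num at hω3
  have hord : orderOf ω = 3 := orderOf_eq_prime hω3 hω1
  have hfermat : ω ^ (q - 1) = 1 := ZMod.pow_card_sub_one_eq_one hω0
  have hdiv : 3 ∣ q - 1 := by
    rw [← hord]
    exact orderOf_dvd_of_pow_eq_one hfermat
  have := hq.two_le
  omega

/-- `v₂(x² + 3)` is even. -/
theorem even_padicValNat_two166 (x : ℕ) : Even (padicValNat 2 (x ^ 2 + 3)) := by
  have : Fact (Nat.Prime 2) := ⟨Nat.prime_two⟩
  rcases Nat.even_or_odd x with hx | hx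
  · -- `x² + 3` is odd
    have hnd : ¬ 2 ∣ x ^ 2 + 3 := by
      obtain ⟨j, rfl⟩ := hx
      intro h
      have e : (j + j) ^ 2 + 3 = 2 * (2 * j ^ 2 + 1) + 1 := by ring
      rw [e] at h
      omega
    rw [padicValNat.eq_zero_of_not_dvd hnd]
    exact Even.zero
  · -- `x² + 3 = 4 (j² + j + 1)` with `j² + j + 1` odd
    obtain ⟨j, rfl⟩ := hx
    have e : (2 * j + 1) ^ 2 + 3 = 2 ^ 2 * (j ^ 2 + j + 1) := by ring
    have hodd : ¬ 2 ∣ j ^ 2 + j + 1 := by
      intro h
      have h1 : 2 ∣ j * (j + 1) := (Nat.even_mul_succ_self j).two_dvd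
      have e1 : j ^ 2 + j + 1 = j * (j + 1) + 1 := by ring
      rw [e1] at h
      omega
    rw [e, padicValNat.mul (by norm_num) (by positivity), padicValNat.prime_pow,
      padicValNat.eq_zero_of_not_dvd hodd]
    exact ⟨1, rfl⟩

/-- `v_q(x² + 3)` is even for every prime `q ≡ 2 mod 3`. -/
theorem even_padicValNat_sq_add_three166 (x q : ℕ) (hq : q.Prime) (hq3 : q % 3 = 2) :
    Even (padicValNat q (x ^ 2 + 3)) := by
  by_cases hq2 : q = 2
  · subst hq2
    exact even_padicValNat_two166 x
  · rw [padicValNat.eq_zero_of_not_dvd (not_dvd_sq_add_three166 x q hq hq3 hq2)]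
    exact Even.zero

/-! ## 3. Natural numbers -/

/-- A positive natural number with even valuation at the primes `≡ 2 mod 3`, all of whose prime
factors `≡ 1 mod 3` are norms, is a norm. -/
theorem natCast_isNormF166 (m : ℕ) : 0 < m →
    (∀ q : ℕ, q.Prime → q % 3 = 2 → Even (padicValNat q m)) →
    (∀ q : ℕ, q.Prime → q ∣ m → q % 3 = 1 → IsNormF166 (q : ℚ)) → IsNormF166 (m : ℚ) := by
  induction m using Nat.strong_induction_on with
  | _ m ih =>
    intro hm hpar hN
    by_cases h1 : m = 1
    · subst h1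
      simpa using isNormF_one166
    obtain ⟨p, hp, k, rfl⟩ := Nat.exists_prime_and_dvd h1
    have : Fact p.Prime := ⟨hp⟩
    have hk : 0 < k := Nat.pos_of_mul_pos_left hm |> fun _ => by
      rcases Nat.eq_zero_or_pos k with h | h
      · subst h; simp at hm
      · exact h
    have hp0 : p ≠ 0 := hp.ne_zero
    have hk0 : k ≠ 0 := hk.ne'
    have hklt : k < p * k := by
      have := hp.two_le
      nlinarith
    by_cases h2 : p % 3 = 2
    · -- `p ≡ 2 mod 3`: `p² ∣ m`
      have hev := hpar p hp h2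
      rw [padicValNat.mul hp0 hk0, padicValNat_self] at hev
      have hodd : 1 ≤ padicValNat p k := by
        rcases Nat.eq_zero_or_pos (padicValNat p k) with h | h
        · rw [h] at hev
          exact absurd hev (by decide)
        · exact h
      obtain ⟨k', rfl⟩ := dvd_of_one_le_padicValNat hodd
      have hk' : 0 < k' := by
        rcases Nat.eq_zero_or_pos k' with h | h
        · subst h; simp at hk
        · exact h
      have hk'0 : k' ≠ 0 := hk'.ne'
      have hk'lt : k' < p * (p * k') := by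
        have := hp.two_le
        nlinarith
      have hk'N : IsNormF166 (k' : ℚ) := by
        apply ih k' hk'lt hk'
        · intro q hq hq3
          have : Fact q.Prime := ⟨hq⟩
          have h := hpar q hq hq3
          rw [padicValNat.mul hp0 (Nat.mul_ne_zero hp0 hk'0), padicValNat.mul hp0 hk'0] at h
          have h' : Even (2 * padicValNat q p + padicValNat q k') := by
            have e : 2 * padicValNat q p + padicValNat q k'
                = padicValNat q p + (padicValNat q p + padicValNat q k') := by ring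
            rw [e]
            exact h
          exact (Nat.even_add.mp h').mp (even_two_mul _)
        · intro q hq hqk hq1
          exact hN q hq (Dvd.dvd.mul_left (Dvd.dvd.mul_left hqk p) p) hq1
      have e : ((p * (p * k') : ℕ) : ℚ) = (p : ℚ) ^ 2 * (k' : ℚ) := by
        push_cast
        ring
      rw [e]
      exact isNormF_mul166 (isNormF_sq166 _) hk'N
    · -- `p = 3` or `p ≡ 1 mod 3`: `p` is a norm
      have hpN : IsNormF166 (p : ℚ) := by
        by_cases h0 : p % 3 = 0
        · have hd : 3 ∣ p := Nat.dvd_of_mod_eq_zero h0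
          have : 3 = p := (Nat.prime_dvd_prime_iff_eq Nat.prime_three hp).mp hd
          rw [← this]
          exact_mod_cast isNormF_three166
        · have h1' : p % 3 = 1 := by omega
          exact hN p hp (Dvd.intro k rfl) h1'
      have hkN : IsNormF166 (k : ℚ) := by
        apply ih k hklt hk
        · intro q hq hq3
          have : Fact q.Prime := ⟨hq⟩
          have h := hpar q hq hq3
          have hne : q ≠ p := by
            intro hqp
            rw [hqp] at hq3
            exact h2 hq3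
          rw [padicValNat.mul hp0 hk0, padicValNat_primes hne, zero_add] at h
          exact h
        · intro q hq hqk hq1
          exact hN q hq (Dvd.dvd.mul_left hqk p) hq1
      have e : ((p * k : ℕ) : ℚ) = (p : ℚ) * (k : ℚ) := by push_cast; ring
      rw [e]
      exact isNormF_mul166 hpN hkN

/-! ## 4. Primes `≡ 1 mod 3` -/

/-- Every prime `p ≡ 1 mod 3` is `a² + 3 b²` with `a, b` rational (descent). -/
theorem prime_isNormF166 (p : ℕ) : p.Prime → p % 3 = 1 → IsNormF166 (p : ℚ) := by
  induction p using Nat.strong_induction_on with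
  | _ p ih =>
    intro hp h3
    have : Fact p.Prime := ⟨hp⟩
    obtain ⟨x, hxp, m, hm⟩ := exists_sq_add_three166 p h3
    have hp2 := hp.two_le
    have hmpos : 0 < m := by
      rcases Nat.eq_zero_or_pos m with h | h
      · subst h
        simp at hm
      · exact h
    have hmlt : m < p := by
      by_contra hcon
      push Not at hcon
      have h1 : p * p ≤ p * m := Nat.mul_le_mul_left p hcon
      have h2 : x + 1 ≤ p := hxp
      have h4 : 4 ≤ p := by omega
      have h5 : (x + 1) * (x + 1) ≤ p * p := Nat.mul_le_mul h2 h2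
      have h6 : p * p ≤ x ^ 2 + 3 := by rw [hm]; exact h1
      have h7 : 16 ≤ p * p := Nat.mul_le_mul h4 h4
      have hx1 : x ≤ 1 := by nlinarith
      have hx2 : x ^ 2 ≤ 1 := by
        interval_cases x <;> norm_num
      omega
    have hp0 : p ≠ 0 := hp.ne_zero
    have hm0 : m ≠ 0 := hmpos.ne'
    have hmN : IsNormF166 (m : ℚ) := by
      apply natCast_isNormF166 m hmpos
      · intro q hq hq3
        have : Fact q.Prime := ⟨hq⟩
        have h := even_padicValNat_sq_add_three166 x q hq hq3
        have hne : q ≠ p := by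
          intro hqp
          rw [hqp] at hq3
          omega
        rw [hm, padicValNat.mul hp0 hm0, padicValNat_primes hne, zero_add] at h
        exact h
      · intro q hq hqm hq1
        exact ih q (lt_of_le_of_lt (Nat.le_of_dvd hmpos hqm) hmlt) hq hq1
    have hmq : (m : ℚ) ≠ 0 := by exact_mod_cast hm0
    have e : (p : ℚ) = ((x : ℚ) ^ 2 + 3 * 1 ^ 2) / (m : ℚ) := by
      rw [eq_div_iff hmq]
      have h : ((x ^ 2 + 3 : ℕ) : ℚ) = ((p * m : ℕ) : ℚ) := by rw [hm]
      push_cast at h
      linear_combination (-1 : ℚ) * h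
    rw [e]
    exact isNormF_div166 ⟨x, 1, rfl⟩ hmN

/-! ## 5. The leaf -/

/-- **T6.00q.3 `NormFC438`.** -/
theorem normFC166 : NormFC438 := by
  intro n hn
  obtain ⟨hpos, hpar⟩ := hn
  have hnum : 0 < n.num := Rat.num_pos.mpr hpos
  have hden : 0 < n.den := n.den_pos
  set N : ℕ := n.num.natAbs with hNdef
  have hN0 : N ≠ 0 := by
    rw [hNdef]
    exact Int.natAbs_ne_zero.mpr hnum.ne'
  have hD0 : n.den ≠ 0 := hden.ne'
  have hNcast : (N : ℤ) = n.num := by
    rw [hNdef]
    exact Int.natAbs_of_nonneg hnum.le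
  have hprod : IsNormF166 ((N * n.den : ℕ) : ℚ) := by
    apply natCast_isNormF166 (N * n.den) (Nat.mul_pos (Nat.pos_of_ne_zero hN0) hden)
    · intro q hq hq3
      have : Fact q.Prime := ⟨hq⟩
      have h := hpar q hq hq3
      have e : padicValRat q n = (padicValNat q N : ℤ) - (padicValNat q n.den : ℤ) := rfl
      rw [e] at h
      rw [padicValNat.mul hN0 hD0]
      have h' : Even ((padicValNat q N : ℤ) + (padicValNat q n.den : ℤ)) := by
        rw [Int.even_add]
        rw [Int.even_sub] at h
        exact h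
      exact_mod_cast h'
    · intro q hq _ hq1
      exact prime_isNormF166 q hq hq1
  have hDq : (n.den : ℚ) ≠ 0 := by exact_mod_cast hD0
  have e : n = ((N * n.den : ℕ) : ℚ) / (n.den : ℚ) ^ 2 := by
    rw [eq_div_iff (pow_ne_zero 2 hDq)]
    have h1 : n * (n.den : ℚ) = (n.num : ℚ) := Rat.mul_den_eq_num n
    have h2 : ((N : ℤ) : ℚ) = (n.num : ℚ) := by rw [hNcast]
    push_cast
    have h3 : ((N : ℕ) : ℚ) = (n.num : ℚ) := by exact_mod_cast h2
    rw [h3]
    linear_combination (n.den : ℚ) * h1
  have hfin : IsNormF166 n := by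
    rw [e]
    exact isNormF_div166 hprod (isNormF_sq166 _)
  exact hfin

end Fermat.Agent.LT.T6.H166
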