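import Mathlib
import Fermat.Agent.LT.T6.H179.LocRegSpec
import Fermat.Agent.LT.H129.HenselQuad
import Fermat.Agent.LT.T6.H166.TwCent

/-!
# Row LT, tower T6, leaf T6.18f.1 `NormalFormC179` (helper166, OFF-MAIN)

`normalFormC166 : H179.NormalFormC179` -- the normal form near a regular point: if
`χ(γ) = (tr γ, det γ)` is close to `χ(γ₀)`, `γ₀` regular, then `γ` is conjugate in `GL₂(k)` to
`a + b γ₀` with `(a, b)` close to `(0, 1)`.

Proof.  `D₀ = disc γ₀ ≠ 0`, `D = disc γ`, `u = D / D₀` is close to `1`, so it has a square root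
`b` close to `1` (Hensel for `X² - u` at `x₀ = 1`, `hensel_quad129` of helper129); put
`a = (tr γ - b tr γ₀) / 2`.  Then `a + b γ₀` has the trace and the determinant of `γ`, and
two `2 × 2` matrices with the same characteristic polynomial of non-zero discriminant are
conjugate (both are conjugate to the companion matrix: `exists_cyclic166`,
`exists_conj_of_charpoly166`).

Imports: Mathlib, `T6/Spec` (v2), `H783/BadSpec`, `H179/LocRegSpec`, `H129/{Newton,HenselQuad}`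
(and their `H159` specs), `H166/TwCent` (for `nonscalar_of_disc166`).
-/

set_option autoImplicit false

open scoped Matrix

noncomputable section

namespace Fermat.Agent.LT.T6.H166

open Fermat.Agent.LT.T6 Fermat.Agent.LT.T6.H783 Fermat.Agent.LT.T6.H179

/-! ## 1. Conjugacy of `2 × 2` matrices with the same characteristic polynomial -/

section Companion

variable {F : Type} [Field F]

/-- A non-scalar `2 × 2` matrix has a cyclic vector `v`; in the basis `(v, M v)` it is the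
companion matrix of its characteristic polynomial. -/
theorem exists_cyclic166 (M : Matrix (Fin 2) (Fin 2) F)
    (h : M 0 1 ≠ 0 ∨ M 1 0 ≠ 0 ∨ M 0 0 - M 1 1 ≠ 0) :
    ∃ P : Matrix (Fin 2) (Fin 2) F, P.det ≠ 0 ∧
      M * P = P * !![0, -M.det; 1, M.trace] := by
  by_cases h10 : M 1 0 = 0
  · by_cases h01 : M 0 1 = 0
    · have h3 : M 0 0 - M 1 1 ≠ 0 := by tauto
      refine ⟨!![1, M 0 0; 1, M 1 1], ?_, ?_⟩
      · rw [Matrix.det_fin_two_of]
        intro h
        apply h3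
        linear_combination -h
      · ext i j
        fin_cases i <;> fin_cases j <;>
          simp [Matrix.mul_apply, Fin.sum_univ_two, Matrix.det_fin_two, Matrix.trace_fin_two,
            h10, h01] <;> ring
    · refine ⟨!![0, M 0 1; 1, M 1 1], ?_, ?_⟩
      · rw [Matrix.det_fin_two_of]
        intro h
        apply h01
        linear_combination -h
      · ext i j
        fin_cases i <;> fin_cases j <;>
          simp [Matrix.mul_apply, Fin.sum_univ_two, Matrix.det_fin_two, Matrix.trace_fin_two]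
            <;> ring
  · refine ⟨!![1, M 0 0; 0, M 1 0], ?_, ?_⟩
    · rw [Matrix.det_fin_two_of]
      intro h
      apply h10
      linear_combination h
    · ext i j
      fin_cases i <;> fin_cases j <;>
        simp [Matrix.mul_apply, Fin.sum_univ_two, Matrix.det_fin_two, Matrix.trace_fin_two]
          <;> ring

/-- A matrix with the trace and the determinant of `γ ∈ GL₂(F)`, `disc γ ≠ 0`, is conjugate to
`γ` in `GL₂(F)`. -/
theorem exists_conj_of_charpoly166 (γ : GL (Fin 2) F) (M' : Matrix (Fin 2) (Fin 2) F)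
    (htr : M'.trace = (γ : Matrix (Fin 2) (Fin 2) F).trace)
    (hdet : M'.det = (γ : Matrix (Fin 2) (Fin 2) F).det)
    (hD : (γ : Matrix (Fin 2) (Fin 2) F).trace ^ 2
      - 4 * (γ : Matrix (Fin 2) (Fin 2) F).det ≠ 0) :
    ∃ g : GL (Fin 2) F, ((g⁻¹ * γ * g : GL (Fin 2) F) : Matrix (Fin 2) (Fin 2) F) = M' := by
  obtain ⟨P, hP, hPC⟩ := exists_cyclic166 (γ : Matrix (Fin 2) (Fin 2) F)
    (nonscalar_of_disc166 _ hD)
  obtain ⟨P', hP', hPC'⟩ := exists_cyclic166 M'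
    (nonscalar_of_disc166 _ (by rw [htr, hdet]; exact hD))
  rw [htr, hdet] at hPC'
  obtain ⟨G, hG⟩ : ∃ G : GL (Fin 2) F, (G : Matrix (Fin 2) (Fin 2) F) = P :=
    ⟨Matrix.GeneralLinearGroup.mkOfDetNeZero P hP, rfl⟩
  obtain ⟨G', hG'⟩ : ∃ G' : GL (Fin 2) F, (G' : Matrix (Fin 2) (Fin 2) F) = P' :=
    ⟨Matrix.GeneralLinearGroup.mkOfDetNeZero P' hP', rfl⟩
  rw [← hG] at hPC
  rw [← hG'] at hPC'
  refine ⟨G * G'⁻¹, ?_⟩
  have e : ((G * G'⁻¹)⁻¹ * γ * (G * G'⁻¹) : GL (Fin 2) F) = G' * (G⁻¹ * (γ * G)) * G'⁻¹ := by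
    group
  rw [e]
  simp only [Units.val_mul]
  rw [hPC, Units.inv_mul_cancel_left, ← hPC', Units.mul_inv_cancel_right]

end Companion

/-! ## 2. The valuation estimates -/

section Val

variable {k : Type} [Field k] [Valued k Γ₀]

theorem v_two_le_one166 : Valued.v (2 : k) ≤ 1 := by
  have h : (2 : k) = 1 + 1 := by norm_num
  rw [h]
  exact Valuation.map_add_le _ (le_of_eq (map_one _)) (le_of_eq (map_one _))

theorem v_le_exp_abs_log166 (x : k) :
    Valued.v x ≤ WithZero.exp |WithZero.log (Valued.v x)| := by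
  by_cases hx : Valued.v x = 0
  · rw [hx]
    exact zero_le
  · conv_lhs => rw [← WithZero.exp_log hx]
    exact WithZero.exp_le_exp.mpr (le_abs_self _)

/-- The scalar form of the normal form: for `(t, d)` close to `(t₀, d₀)`, `t₀² - 4 d₀ ≠ 0`, there
are `a` close to `0` and `b` close to `1` with `2 a + b t₀ = t` and
`b² (t₀² - 4 d₀) = t² - 4 d`. -/
theorem normal_form_core166 [CharZero k] [CompleteSpace k] (t₀ d₀ : k)
    (hD₀ : t₀ ^ 2 - 4 * d₀ ≠ 0) (M : ℤ) :
    ∃ N : ℤ, ∀ t d : k, Valued.v (t - t₀) ≤ WithZero.exp (-N) →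
      Valued.v (d - d₀) ≤ WithZero.exp (-N) →
      ∃ a b : k, Valued.v a ≤ WithZero.exp (-M) ∧ Valued.v (b - 1) ≤ WithZero.exp (-M) ∧
        2 * a + b * t₀ = t ∧ b ^ 2 * (t₀ ^ 2 - 4 * d₀) = t ^ 2 - 4 * d ∧ b ≠ 0 := by
  have h2 : (2 : k) ≠ 0 := two_ne_zero
  have hv2 : Valued.v (2 : k) ≠ 0 := (Valuation.ne_zero_iff _).mpr h2
  have hvD₀ : Valued.v (t₀ ^ 2 - 4 * d₀) ≠ 0 := (Valuation.ne_zero_iff _).mpr hD₀
  obtain ⟨n2, e2⟩ : ∃ n2 : ℤ, Valued.v (2 : k) = WithZero.exp n2 :=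
    ⟨_, (WithZero.exp_log hv2).symm⟩
  obtain ⟨nD, eD⟩ : ∃ nD : ℤ, Valued.v (t₀ ^ 2 - 4 * d₀) = WithZero.exp nD :=
    ⟨_, (WithZero.exp_log hvD₀).symm⟩
  obtain ⟨nT, hnT0, eT⟩ : ∃ nT : ℤ, 0 ≤ nT ∧ Valued.v t₀ ≤ WithZero.exp nT :=
    ⟨_, abs_nonneg _, v_le_exp_abs_log166 t₀⟩
  have hn2le : n2 ≤ 0 := by
    have h := v_two_le_one166 (k := k)
    rw [e2, ← WithZero.exp_zero] at h
    exact WithZero.exp_le_exp.mp h
  obtain ⟨aM, haM0, haM⟩ : ∃ aM : ℤ, 0 ≤ aM ∧ M ≤ aM := ⟨_, abs_nonneg M, le_abs_self M⟩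
  obtain ⟨aD, haD1, haD2⟩ : ∃ aD : ℤ, nD ≤ aD ∧ -nD ≤ aD :=
    ⟨_, le_abs_self nD, neg_le_abs nD⟩
  obtain ⟨N, hN⟩ : ∃ N : ℤ, N = aM + 2 * nT + aD - 2 * n2 + 1 := ⟨_, rfl⟩
  refine ⟨N, ?_⟩
  intro t d htr hdet
  have h4 : Valued.v (4 : k) ≤ 1 := by
    have h : (4 : k) = 2 * 2 := by norm_num
    rw [h, map_mul]
    exact mul_le_one' v_two_le_one166 v_two_le_one166
  have h_tt : Valued.v (t + t₀) ≤ WithZero.exp nT := by
    have h : t + t₀ = (t - t₀) + 2 * t₀ := by ring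
    rw [h]
    apply Valuation.map_add_le
    · exact htr.trans (WithZero.exp_le_exp.mpr (by omega))
    · rw [map_mul]
      calc Valued.v (2 : k) * Valued.v t₀ ≤ 1 * Valued.v t₀ :=
            mul_le_mul' v_two_le_one166 le_rfl
        _ = Valued.v t₀ := one_mul _
        _ ≤ WithZero.exp nT := eT
  have hDD : Valued.v ((t ^ 2 - 4 * d) - (t₀ ^ 2 - 4 * d₀)) ≤ WithZero.exp (-N + nT) := by
    have h : (t ^ 2 - 4 * d) - (t₀ ^ 2 - 4 * d₀) = (t - t₀) * (t + t₀) - 4 * (d - d₀) := by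
      ring
    rw [h]
    apply Valuation.map_sub_le
    · rw [map_mul, WithZero.exp_add]
      exact mul_le_mul' htr h_tt
    · rw [map_mul]
      calc Valued.v (4 : k) * Valued.v (d - d₀) ≤ 1 * WithZero.exp (-N) :=
            mul_le_mul' h4 hdet
        _ = WithZero.exp (-N) := one_mul _
        _ ≤ WithZero.exp (-N + nT) := WithZero.exp_le_exp.mpr (by omega)
  obtain ⟨u, hu⟩ : ∃ u : k, u = (t ^ 2 - 4 * d) / (t₀ ^ 2 - 4 * d₀) := ⟨_, rfl⟩
  have huD : u * (t₀ ^ 2 - 4 * d₀) = t ^ 2 - 4 * d := by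
    rw [hu]
    field_simp
  have hu1 : Valued.v (1 - u) ≤ WithZero.exp (-N + nT - nD) := by
    have h : 1 - u = -(((t ^ 2 - 4 * d) - (t₀ ^ 2 - 4 * d₀)) / (t₀ ^ 2 - 4 * d₀)) := by
      rw [hu]
      field_simp
      ring
    rw [h, Valuation.map_neg, map_div₀, eD, div_le_iff₀ WithZero.exp_pos, ← WithZero.exp_add]
    have h' : -N + nT - nD + nD = -N + nT := by ring
    rw [h']
    exact hDD
  have e_f : (1 : k) ^ 2 - 0 * 1 + (-u) = 1 - u := by ring
  have e_f' : (2 : k) * 1 - 0 = 2 := by ring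
  have hH : Valued.v ((1 : k) ^ 2 - 0 * 1 + (-u)) < Valued.v ((2 : k) * 1 - 0) ^ 2 := by
    rw [e_f, e_f', e2, pow_two, ← WithZero.exp_add]
    exact lt_of_le_of_lt hu1 (WithZero.exp_lt_exp.mpr (by omega))
  obtain ⟨b, hb, hbv⟩ := Fermat.Agent.LT.H129.hensel_quad129 (0 : k) (-u) 1 hH
  have hbu : b ^ 2 = u := by linear_combination hb
  have hb1 : Valued.v (b - 1) ≤ WithZero.exp (-N + nT - nD - n2) := by
    rw [e_f, e_f', e2] at hbv
    have h := hbv.trans hu1
    have h' : WithZero.exp (-N + nT - nD)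
        = WithZero.exp (-N + nT - nD - n2) * WithZero.exp n2 := by
      rw [← WithZero.exp_add]
      congr 1
      ring
    rw [h'] at h
    exact le_of_mul_le_mul_right h WithZero.exp_pos
  have hb0 : b ≠ 0 := by
    intro h0
    rw [h0, zero_sub, Valuation.map_neg, map_one, ← WithZero.exp_zero] at hb1
    have := WithZero.exp_le_exp.mp hb1
    omega
  refine ⟨(t - b * t₀) / 2, b, ?_, ?_, ?_, ?_, hb0⟩
  · have h : t - b * t₀ = (t - t₀) - (b - 1) * t₀ := by ring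
    rw [map_div₀, e2, div_le_iff₀ WithZero.exp_pos, ← WithZero.exp_add, h]
    apply Valuation.map_sub_le
    · exact htr.trans (WithZero.exp_le_exp.mpr (by omega))
    · rw [map_mul]
      calc Valued.v (b - 1) * Valued.v t₀
          ≤ WithZero.exp (-N + nT - nD - n2) * WithZero.exp nT := mul_le_mul' hb1 eT
        _ = WithZero.exp (-N + nT - nD - n2 + nT) := (WithZero.exp_add _ _).symm
        _ ≤ WithZero.exp (-M + n2) := WithZero.exp_le_exp.mpr (by omega)
  · exact hb1.trans (WithZero.exp_le_exp.mpr (by omega))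
  · field_simp
    ring
  · rw [hbu, huD]

end Val

/-! ## 3. The leaf -/

/-- **T6.18f.1 `NormalFormC179`.** -/
theorem normalFormC166 : NormalFormC179 := by
  intro k _ _ q hk γ₀ hreg M
  have hc0 : CharZero k := hk.char0
  have hcs : CompleteSpace k := hk.complete
  have hD₀ : (γ₀ : Matrix (Fin 2) (Fin 2) k).trace ^ 2
      - 4 * (γ₀ : Matrix (Fin 2) (Fin 2) k).det ≠ 0 := hreg.ne_zero
  obtain ⟨N, hN⟩ := normal_form_core166 _ _ hD₀ M
  refine ⟨N, ?_⟩
  intro γ hγ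
  obtain ⟨a, b, hva, hvb, htr, hdisc, hb0⟩ := hN _ _ hγ.1 hγ.2
  have h4 : (4 : k) ≠ 0 := by
    have h : ((4 : ℕ) : k) ≠ 0 := Nat.cast_ne_zero.mpr (by norm_num)
    exact_mod_cast h
  have htr' : (a • (1 : Matrix (Fin 2) (Fin 2) k)
      + b • (γ₀ : Matrix (Fin 2) (Fin 2) k)).trace = (γ : Matrix (Fin 2) (Fin 2) k).trace := by
    rw [← htr, Matrix.trace_fin_two, Matrix.trace_fin_two]
    simp only [Matrix.add_apply, Matrix.smul_apply, Matrix.one_apply_eq, smul_eq_mul]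
    ring
  have hdet' : (a • (1 : Matrix (Fin 2) (Fin 2) k)
      + b • (γ₀ : Matrix (Fin 2) (Fin 2) k)).det = (γ : Matrix (Fin 2) (Fin 2) k).det := by
    apply mul_left_cancel₀ h4
    have h01 : (1 : Matrix (Fin 2) (Fin 2) k) 0 1 = 0 := Matrix.one_apply_ne (by decide)
    have h10 : (1 : Matrix (Fin 2) (Fin 2) k) 1 0 = 0 := Matrix.one_apply_ne (by decide)
    rw [Matrix.det_fin_two (a • (1 : Matrix (Fin 2) (Fin 2) k)
      + b • (γ₀ : Matrix (Fin 2) (Fin 2) k))]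
    simp only [Matrix.add_apply, Matrix.smul_apply, Matrix.one_apply_eq, smul_eq_mul, h01, h10]
    rw [Matrix.trace_fin_two, Matrix.det_fin_two] at hdisc
    rw [Matrix.trace_fin_two] at htr
    linear_combination (2 * a + (γ : Matrix (Fin 2) (Fin 2) k).trace
      + b * ((γ₀ : Matrix (Fin 2) (Fin 2) k) 0 0 + (γ₀ : Matrix (Fin 2) (Fin 2) k) 1 1)) * htr
      - hdisc
  have hD : (γ : Matrix (Fin 2) (Fin 2) k).trace ^ 2
      - 4 * (γ : Matrix (Fin 2) (Fin 2) k).det ≠ 0 := by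
    rw [← hdisc]
    exact mul_ne_zero (pow_ne_zero 2 hb0) hD₀
  obtain ⟨g, hg⟩ := exists_conj_of_charpoly166 γ _ htr' hdet' hD
  exact ⟨g, a, b, hva, hvb, hg⟩

end Fermat.Agent.LT.T6.H166

end
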